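/-
GATE-B (S38/S43) / CASE B, `p ∣ level` branch / node B10′ "p-new ⟹ strict", leaf N4 (helper78;
ruling helper32, board 5649): **from Frobenius lifts to the whole decomposition group, and the
frozen `IsStrictOrdinaryAt` from per-level data with `sq` only at Frobenius lifts.**

`A` a Noetherian local ring, `ρ : GaloisRepAdic A`, `P ∣ p` a place of `ℚ̄`, `L = A ∙ b 0` an ordinary
line at `P` (`D_P`-stable, `(I_P - 1) V ⊆ L`).

* `zc ρ b g := b.repr (ρ g (b 1)) 1` : the quotient coordinate ("`z(g)`"); multiplicative on the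
  stabiliser of the line (`zc_mul`), `1` on inertia, `≡ 1 mod 𝔪ⁿ` on the open subgroup where
  `ρ ≡ 1 mod 𝔪ⁿ`; `(ρ(g)² - 1) V ⊆ L ↔ z(g)² = 1` (`sq_sub_mem_iff`).
* `sq_mem_of_frob` **[CYC]** : if `(ρ(φ)² - 1) V ⊆ L` for ONE Frobenius lift `φ` at `P`, then
  `(ρ(σ)² - 1) V ⊆ L` for EVERY `σ ∈ D_P`  (`σ = φⁿ · τ · h` modulo every finite level:
  `GP/Loc/FrobGen.exists_restrictNormalHom_eq`; adic continuity of `ρ`; Krull).
* `sq_transferSub` : the `sq` clause over an arbitrary set `F` of operators passes through helper79's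
  transfer (`transferSub`), next to `connPackage_transferSub` of `GB/New/StrictPkg`.
* `sq_mem_of_levels_set` : per-level `ConnPackage` + `sq` over a set `F` ⟹ `(ρ(τ)² - 1) V ⊆ L`,
  `τ ∈ F`, for every submodule `L` containing the inertia increments.
* `isStrictOrdinaryAt_of_levels_frob` : **`IsOrdinaryAt` + `DetIsCyclotomic` + per-level
  (`ConnPackage` + `sq` at Frobenius lifts) ⟹ frozen `IsStrictOrdinaryAt`.**
-/
import Mathlib
import Fermat.Agent.GB.New.StrictOfLevels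
import Fermat.Agent.GP.Loc.FrobGen
import Fermat.Agent.Common_helper32.FrobeniusExists

set_option autoImplicit false

open IsLocalRing

namespace Fermat.Agent.GB.New.StrictOfFrob

open Fermat.Agent.GB.New.StrictPkg Fermat.Agent.GB.New.StrictOfLevels
open Fermat.Agent.GS.Alg.Transfer Fermat.Agent.GH.S32

local notation "Qb" => AlgebraicClosure ℚ
local notation "GQ" => (AlgebraicClosure ℚ ≃ₐ[ℚ] AlgebraicClosure ℚ)

/-! ### the quotient coordinate -/

section Coord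

variable {A : Type} [CommRing A] [IsLocalRing A] (ρ : GaloisRepAdic A)
  (b : Module.Basis (Fin 2) A ρ.V)

/-- the quotient coordinate `z(g)` of `ρ g` in the basis `b` (meaningful when `ρ g` stabilises the
line `A ∙ b 0`). -/
noncomputable def zc (g : GQ) : A := b.repr (ρ.ρ g (b 1)) 1

theorem mem_span_iff (v : ρ.V) : v ∈ A ∙ b 0 ↔ b.repr v 1 = 0 := by
  rw [Submodule.mem_span_singleton]
  constructor
  · rintro ⟨a, rfl⟩
    rw [map_smul, Finsupp.smul_apply, b.repr_self, Finsupp.single_apply]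
    simp
  · intro h1
    refine ⟨b.repr v 0, ?_⟩
    have := b.sum_repr v
    rw [Fin.sum_univ_two, h1, zero_smul, add_zero] at this
    exact this

/-- the second coordinate of `ρ g v` when `ρ g` stabilises the line. -/
theorem repr_one_apply {g : GQ} (hg : ρ.ρ g (b 0) ∈ A ∙ b 0) (v : ρ.V) :
    b.repr (ρ.ρ g v) 1 = zc ρ b g * b.repr v 1 := by
  have hv := b.sum_repr v
  rw [Fin.sum_univ_two] at hv
  have h0 : b.repr (ρ.ρ g (b 0)) 1 = 0 := (mem_span_iff ρ b _).1 hg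
  conv_lhs => rw [← hv]
  rw [map_add, map_smul, map_smul, map_add, map_smul, map_smul, Finsupp.add_apply,
    Finsupp.smul_apply, Finsupp.smul_apply, h0, smul_zero, zero_add, smul_eq_mul, mul_comm]
  rfl

theorem zc_mul {g g' : GQ} (hg : ρ.ρ g (b 0) ∈ A ∙ b 0) :
    zc ρ b (g * g') = zc ρ b g * zc ρ b g' := by
  show b.repr (ρ.ρ (g * g') (b 1)) 1 = _
  rw [map_mul, Module.End.mul_apply, repr_one_apply ρ b hg]
  rfl

theorem zc_one : zc ρ b 1 = 1 := by
  have h1 : ρ.ρ 1 = 1 := map_one _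
  unfold zc
  rw [h1, Module.End.one_apply, b.repr_self, Finsupp.single_apply]
  simp

theorem zc_pow {g : GQ} (hg : ρ.ρ g (b 0) ∈ A ∙ b 0) (n : ℕ) :
    zc ρ b (g ^ n) = zc ρ b g ^ n := by
  induction n with
  | zero => rw [pow_zero, pow_zero, zc_one]
  | succ n ih => rw [pow_succ', pow_succ', zc_mul ρ b hg, ih]

/-- `(ρ(g)² - 1) V ⊆ L ↔ z(g)² = 1`. -/
theorem sq_sub_mem_iff {g : GQ} (hg : ρ.ρ g (b 0) ∈ A ∙ b 0) :
    (∀ v : ρ.V, ρ.ρ g (ρ.ρ g v) - v ∈ A ∙ b 0) ↔ zc ρ b g * zc ρ b g = 1 := by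
  have key : ∀ v : ρ.V, b.repr (ρ.ρ g (ρ.ρ g v) - v) 1 =
      (zc ρ b g * zc ρ b g - 1) * b.repr v 1 := by
    intro v
    rw [map_sub, Finsupp.sub_apply, repr_one_apply ρ b hg, repr_one_apply ρ b hg]
    ring
  constructor
  · intro h
    have h1 := (mem_span_iff ρ b _).1 (h (b 1))
    rw [key, b.repr_self, Finsupp.single_apply] at h1
    simp only [↓reduceIte, mul_one] at h1
    exact sub_eq_zero.1 h1
  · intro h v
    rw [mem_span_iff, key, h, sub_self, zero_mul]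

/-- `z(g) = 1` when `(ρ(g) - 1) V ⊆ L`. -/
theorem zc_eq_one_of_sub_mem {g : GQ} (h : ρ.ρ g (b 1) - b 1 ∈ A ∙ b 0) : zc ρ b g = 1 := by
  have h1 := (mem_span_iff ρ b _).1 h
  rw [map_sub, Finsupp.sub_apply, b.repr_self, Finsupp.single_apply] at h1
  simp only [↓reduceIte] at h1
  exact sub_eq_zero.1 h1

/-- coordinates of an element of `I • ⊤` lie in `I`. -/
theorem repr_mem_of_mem_smul_top (I : Ideal A) {x : ρ.V}
    (hx : x ∈ I • (⊤ : Submodule A ρ.V)) (i : Fin 2) : b.repr x i ∈ I := by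
  refine Submodule.smul_induction_on (p := fun x => b.repr x i ∈ I) hx (fun a ha y _ => ?_)
    (fun y y' hy hy' => ?_)
  · show b.repr (a • y) i ∈ I
    rw [map_smul, Finsupp.smul_apply, smul_eq_mul]
    exact I.mul_mem_right _ ha
  · show b.repr (y + y') i ∈ I
    rw [map_add, Finsupp.add_apply]
    exact I.add_mem hy hy'

/-- `z(g) ≡ 1 mod I` when `(ρ(g) - 1) V ⊆ I V`. -/
theorem zc_sub_one_mem (I : Ideal A) {g : GQ}
    (h : ρ.ρ g (b 1) - b 1 ∈ I • (⊤ : Submodule A ρ.V)) : zc ρ b g - 1 ∈ I := by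
  have h1 := repr_mem_of_mem_smul_top ρ b I h 1
  rw [map_sub, Finsupp.sub_apply, b.repr_self, Finsupp.single_apply] at h1
  simp only [↓reduceIte] at h1
  exact h1

end Coord

/-! ### [CYC]: from one Frobenius lift to the decomposition group -/

section Cyc

variable {A : Type} [CommRing A] [IsLocalRing A] [IsNoetherianRing A] (ρ : GaloisRepAdic A)

/-- **[CYC].**  `L = A ∙ b 0` an ordinary line at `P ∣ p`; if `(ρ(φ)² - 1) V ⊆ L` for one Frobenius
lift `φ` at `P`, then `(ρ(σ)² - 1) V ⊆ L` for every `σ` of the decomposition group. -/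
theorem sq_mem_of_frob {p : ℕ} (hp : p.Prime) (P : ValuationSubring Qb) (hP : P.LiesOverPrime p)
    (b : Module.Basis (Fin 2) A ρ.V)
    (hD : ∀ σ ∈ P.decompositionSubgroup ℚ, ∀ v ∈ A ∙ b 0, ρ.ρ σ v ∈ A ∙ b 0)
    (hI : ∀ σ ∈ P.inertiaSubgroupIn ℚ, ∀ v : ρ.V, ρ.ρ σ v - v ∈ A ∙ b 0)
    {φ : GQ} (hφ : P.IsFrobeniusAt φ p)
    (hφsq : ∀ v : ρ.V, ρ.ρ φ (ρ.ρ φ v) - v ∈ A ∙ b 0)
    {σ : GQ} (hσ : σ ∈ P.decompositionSubgroup ℚ) (v : ρ.V) :
    ρ.ρ σ (ρ.ρ σ v) - v ∈ A ∙ b 0 := by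
  have hb0 : b 0 ∈ A ∙ b 0 := Submodule.mem_span_singleton_self _
  have hst : ∀ g ∈ P.decompositionSubgroup ℚ, ρ.ρ g (b 0) ∈ A ∙ b 0 :=
    fun g hg => hD g hg _ hb0
  have hφD : φ ∈ P.decompositionSubgroup ℚ := hφ.mem_decompositionSubgroup
  have hzφ : zc ρ b φ * zc ρ b φ = 1 := (sq_sub_mem_iff ρ b (hst φ hφD)).1 hφsq
  refine (sq_sub_mem_iff ρ b (hst σ hσ)).2 ?_ v
  -- `z(σ)² - 1` lies in every power of the maximal ideal
  have key : ∀ n : ℕ, zc ρ b σ * zc ρ b σ - 1 ∈ maximalIdeal A ^ n := by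
    intro n
    obtain ⟨L₀, hL₀, hcont⟩ := ρ.isAdicContinuous n
    set L : IntermediateField ℚ Qb := IntermediateField.normalClosure ℚ L₀ Qb with hL
    have hLn : Normal ℚ L := normalClosure.normal ℚ L₀ Qb
    have hLf : FiniteDimensional ℚ L := normalClosure.is_finiteDimensional ℚ L₀ Qb
    have hle : L₀ ≤ L := L₀.le_normalClosure
    have hLg : IsGalois ℚ L := ⟨⟩
    obtain ⟨m, τ, hτ, hres⟩ :=
      Fermat.Agent.GP.Loc.FrobGen.exists_restrictNormalHom_eq L P hp hP hφ hσ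
    set g : GQ := φ ^ m * τ with hg
    have hτD : τ ∈ P.decompositionSubgroup ℚ := by
      unfold ValuationSubring.inertiaSubgroupIn at hτ
      rw [Subgroup.mem_map] at hτ
      obtain ⟨i', _, rfl⟩ := hτ
      exact i'.2
    have hφmD : φ ^ m ∈ P.decompositionSubgroup ℚ := Subgroup.pow_mem _ hφD m
    have hgD : g ∈ P.decompositionSubgroup ℚ := Subgroup.mul_mem _ hφmD hτD
    -- `h := g⁻¹ σ` fixes `L₀`
    have hfix : ∀ x ∈ L₀, (g⁻¹ * σ) x = x := by
      intro x hx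
      have hxL : x ∈ L := hle hx
      have h1 : AlgEquiv.restrictNormalHom L (g⁻¹ * σ) = 1 := by
        rw [map_mul, map_inv, hres, inv_mul_cancel]
      have h2 := AlgEquiv.restrictNormal_commutes (g⁻¹ * σ) L ⟨x, hxL⟩
      have h3 : (g⁻¹ * σ).restrictNormal L = 1 := h1
      rw [h3] at h2
      exact h2.symm
    have hh : zc ρ b (g⁻¹ * σ) - 1 ∈ maximalIdeal A ^ n :=
      zc_sub_one_mem ρ b _ (hcont (g⁻¹ * σ) hfix (b 1))
    -- `z(σ) = z(φ)^m · z(h)`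
    have hσe : σ = g * (g⁻¹ * σ) := by rw [mul_inv_cancel_left]
    have hzτ : zc ρ b τ = 1 := zc_eq_one_of_sub_mem ρ b (hI τ hτ (b 1))
    have hzσ : zc ρ b σ = zc ρ b φ ^ m * zc ρ b (g⁻¹ * σ) := by
      conv_lhs => rw [hσe]
      rw [zc_mul ρ b (hst g hgD), hg, zc_mul ρ b (hst _ hφmD), zc_pow ρ b (hst φ hφD), hzτ,
        mul_one]
    have hpow : zc ρ b φ ^ m * zc ρ b φ ^ m = 1 := by
      rw [← mul_pow, hzφ, one_pow]
    have e : zc ρ b σ * zc ρ b σ - 1 =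
        (zc ρ b (g⁻¹ * σ) - 1) * (zc ρ b (g⁻¹ * σ) + 1) := by
      rw [hzσ]
      have : zc ρ b φ ^ m * zc ρ b (g⁻¹ * σ) * (zc ρ b φ ^ m * zc ρ b (g⁻¹ * σ)) =
          (zc ρ b φ ^ m * zc ρ b φ ^ m) * (zc ρ b (g⁻¹ * σ) * zc ρ b (g⁻¹ * σ)) := by ring
      rw [this, hpow]
      ring
    rw [e]
    exact Ideal.mul_mem_right _ _ hh
  have hbot : zc ρ b σ * zc ρ b σ - 1 ∈ (⨅ n : ℕ, maximalIdeal A ^ n : Ideal A) := by
    rw [Ideal.mem_iInf]
    exact key
  rw [Ideal.iInf_pow_eq_bot_of_isLocalRing (maximalIdeal A)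
    (IsLocalRing.maximalIdeal.isMaximal A).ne_top, Ideal.mem_bot] at hbot
  exact sub_eq_zero.1 hbot

end Cyc

/-! ### the `sq` clause over a set of operators through the transfer -/

section Transfer

variable {G : Type*} {M M' : Type*} [AddCommGroup M] [AddCommGroup M']

/-- the `sq` clause over an arbitrary set `F` of operators passes to `transferSub`. -/
theorem sq_transferSub {F : Set G} {act : G → M → M} {act' : G → M' → M'} {W : AddSubgroup M}
    (hsq : ∀ σ ∈ F, ∀ u, act σ (act σ u) - u ∈ W)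
    {r : ℕ} (X₁ : AddSubgroup (Fin r → M)) (f : X₁ →+ M') (hf : Function.Surjective f)
    (hst : ∀ g, ∀ x ∈ X₁, (fun i => act g (x i)) ∈ X₁)
    (heq : ∀ g (x : X₁), f ⟨fun i => act g (x.1 i), hst g x.1 x.2⟩ = act' g (f x)) :
    ∀ σ ∈ F, ∀ u, act' σ (act' σ u) - u ∈ transferSub X₁ f W := by
  intro σ hσ u
  obtain ⟨x, rfl⟩ := hf u
  let x1 : X₁ := ⟨fun i => act σ (x.1 i), hst σ x.1 x.2⟩
  let x2 : X₁ := ⟨fun i => act σ (x1.1 i), hst σ x1.1 x1.2⟩
  refine mem_transferSub.2 ⟨x2 - x, fun i => hsq σ hσ (x.1 i), ?_⟩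
  rw [map_sub]
  have h1 : f x1 = act' σ (f x) := heq σ x
  have h2 : f x2 = act' σ (f x1) := heq σ x1
  rw [h2, h1]

/-- **TRANSFER with `sq` over a set `F`**: the connected package and the `sq` clause over `F` pass
together to equivariant subquotients of finite powers. -/
theorem exists_connPackage_sq_of_isSubquotPow {I D F : Set G} {act : G → M → M}
    {act' : G → M' → M'}
    (hadd : ∀ σ x y, act σ (x + y) = act σ x + act σ y) (hID : I ⊆ D)
    (hinv : ∀ σ ∈ D, ∃ τ ∈ D, ∀ w, act' τ (act' σ w) = w)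
    {W : AddSubgroup M} (h : ConnPackage I D act W)
    (hsq : ∀ σ ∈ F, ∀ u, act σ (act σ u) - u ∈ W) (hsub : IsSubquotPow act act') :
    ∃ W' : AddSubgroup M', ConnPackage I D act' W' ∧
      ∀ σ ∈ F, ∀ u, act' σ (act' σ u) - u ∈ W' := by
  obtain ⟨r, X₁, f, hf, hst, heq⟩ := hsub
  exact ⟨transferSub X₁ f W, connPackage_transferSub hadd hID hinv h X₁ f hf hst heq,
    sq_transferSub hsq X₁ f hf hst heq⟩

end Transfer

/-! ### levels with `sq` over a set -/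

section Levels

variable {A : Type} [CommRing A] [IsLocalRing A] [IsNoetherianRing A]

/-- per-level `ConnPackage` + `sq` over a set `F` ⟹ `(ρ(τ)² - 1) V ⊆ L` for `τ ∈ F`, for every
submodule `L` containing the inertia increments. -/
theorem sq_mem_of_levels_set (ρ : GaloisRepAdic A) (P : ValuationSubring Qb) (F : Set GQ)
    (hlev : ∀ n : ℕ, ∃ W : AddSubgroup (ρ.V ⧸ ((maximalIdeal A ^ n) • (⊤ : Submodule A ρ.V))),
      ConnPackage (↑(P.inertiaSubgroupIn ℚ) : Set GQ) (↑(P.decompositionSubgroup ℚ) : Set GQ)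
        (fun (σ : GQ) (w : ρ.V ⧸ ((maximalIdeal A ^ n) • (⊤ : Submodule A ρ.V))) =>
          ρ.levelAction (maximalIdeal A ^ n) σ w) W ∧
      ∀ τ ∈ F, ∀ u, ρ.levelAction (maximalIdeal A ^ n) τ
        (ρ.levelAction (maximalIdeal A ^ n) τ u) - u ∈ W)
    (L : Submodule A ρ.V)
    (hI : ∀ σ ∈ P.inertiaSubgroupIn ℚ, ∀ v : ρ.V, ρ.ρ σ v - v ∈ L)
    {τ : GQ} (hτ : τ ∈ F) (v : ρ.V) :
    ρ.ρ τ (ρ.ρ τ v) - v ∈ L := by
  refine mem_of_forall_mem_sup_pow L _ fun n => ?_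
  obtain ⟨W, hW, hsq⟩ := hlev n
  have hπact : ∀ (g : GQ) (u : ρ.V),
      ρ.levelAction (maximalIdeal A ^ n) g
        (((maximalIdeal A ^ n) • (⊤ : Submodule A ρ.V)).mkQ u) =
      ((maximalIdeal A ^ n) • (⊤ : Submodule A ρ.V)).mkQ (ρ.ρ g u) :=
    fun g u => rfl
  have hWL : W ≤ (L.map ((maximalIdeal A ^ n) • (⊤ : Submodule A ρ.V)).mkQ).toAddSubgroup := by
    rw [connPackage_eq_incrSub hW, incrSub, AddSubgroup.closure_le]
    rintro _ ⟨g, hg, u, rfl⟩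
    obtain ⟨u', rfl⟩ := ((maximalIdeal A ^ n) • (⊤ : Submodule A ρ.V)).mkQ_surjective u
    show ρ.levelAction (maximalIdeal A ^ n) g
        (((maximalIdeal A ^ n) • (⊤ : Submodule A ρ.V)).mkQ u') -
      ((maximalIdeal A ^ n) • (⊤ : Submodule A ρ.V)).mkQ u' ∈
        L.map ((maximalIdeal A ^ n) • (⊤ : Submodule A ρ.V)).mkQ
    rw [hπact, ← map_sub]
    exact Submodule.mem_map_of_mem (hI g hg u')
  have h1 : ρ.levelAction (maximalIdeal A ^ n) τ (ρ.levelAction (maximalIdeal A ^ n) τ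
        (((maximalIdeal A ^ n) • (⊤ : Submodule A ρ.V)).mkQ v)) -
      ((maximalIdeal A ^ n) • (⊤ : Submodule A ρ.V)).mkQ v ∈
        L.map ((maximalIdeal A ^ n) • (⊤ : Submodule A ρ.V)).mkQ :=
    hWL (hsq τ hτ _)
  rw [hπact, hπact, ← map_sub] at h1
  obtain ⟨l, hl, hlv⟩ := h1
  have h2 : ρ.ρ τ (ρ.ρ τ v) - v - l ∈ (maximalIdeal A ^ n) • (⊤ : Submodule A ρ.V) := by
    rw [← Submodule.Quotient.mk_eq_zero, Submodule.Quotient.mk_sub]
    show ((maximalIdeal A ^ n) • (⊤ : Submodule A ρ.V)).mkQ (ρ.ρ τ (ρ.ρ τ v) - v) -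
      ((maximalIdeal A ^ n) • (⊤ : Submodule A ρ.V)).mkQ l = 0
    rw [hlv, sub_self]
  have e : ρ.ρ τ (ρ.ρ τ v) - v = l + (ρ.ρ τ (ρ.ρ τ v) - v - l) := by abel
  rw [e]
  exact Submodule.add_mem_sup hl h2

/-- **N4: frozen `IsStrictOrdinaryAt` from `IsOrdinaryAt`, `DetIsCyclotomic` and per-level data
with `sq` ONLY at Frobenius lifts**, at every place above `p`. -/
theorem isStrictOrdinaryAt_of_levels_frob (ρ : GaloisRepAdic A) {p : ℕ} (hp : p.Prime)
    (hdet : ρ.DetIsCyclotomic p) (hord : ρ.IsOrdinaryAt p)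
    (hlev : ∀ P : ValuationSubring Qb, P.LiesOverPrime p → ∀ n : ℕ,
      ∃ W : AddSubgroup (ρ.V ⧸ ((maximalIdeal A ^ n) • (⊤ : Submodule A ρ.V))),
        ConnPackage (↑(P.inertiaSubgroupIn ℚ) : Set GQ) (↑(P.decompositionSubgroup ℚ) : Set GQ)
          (fun (σ : GQ) (w : ρ.V ⧸ ((maximalIdeal A ^ n) • (⊤ : Submodule A ρ.V))) =>
            ρ.levelAction (maximalIdeal A ^ n) σ w) W ∧
        ∀ τ ∈ {τ : GQ | P.IsFrobeniusAt τ p}, ∀ u, ρ.levelAction (maximalIdeal A ^ n) τ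
          (ρ.levelAction (maximalIdeal A ^ n) τ u) - u ∈ W) :
    ρ.IsStrictOrdinaryAt p := by
  refine isStrictOrdinaryAt_of_sq ρ hdet hord fun P hP L hb hD hI σ hσ v => ?_
  obtain ⟨b, rfl⟩ := hb
  obtain ⟨φ, hφ⟩ := Fermat.Agent.Common_helper32.exists_isFrobeniusAt_of_liesOver P p hp hP
  have hφsq : ∀ v : ρ.V, ρ.ρ φ (ρ.ρ φ v) - v ∈ A ∙ b 0 := fun v =>
    sq_mem_of_levels_set ρ P {τ : GQ | P.IsFrobeniusAt τ p} (hlev P hP) (A ∙ b 0) hI
      (show φ ∈ {τ : GQ | P.IsFrobeniusAt τ p} from hφ) v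
  exact sq_mem_of_frob ρ hp P hP b hD hI hφ hφsq hσ v

end Levels

end Fermat.Agent.GB.New.StrictOfFrob
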