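/-
GATE-B (S38/S43) / CASE B, `p ∣ level` branch / node B10′ = (M1) "p-new ⟹ strict", ALGEBRA END,
file 1 (helper78): **the strict package** — helper79's connected package (`GS/Alg/Transfer`) plus
"`σ² - 1` lands in `W` for every `σ` of the decomposition set".

Abstract: `G` any type of operators, `D I : Set G` ("decomposition" and "inertia"),
`act : G → M → M`.

* `incrSub I act`            : the subgroup generated by the increments `act σ u - u`, `σ ∈ I`;
* `connPackage_eq_incrSub`   : a connected package determines its subgroup, `W = incrSub I act`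
                               (so `W` is stable under every additive operator commuting with `act`:
                               `map_mem_incrSub`);
* `transferSub X₁ f W`       : `f (X₁ ∩ W ^ r)`, the subgroup of helper79's transfer, and
  `connPackage_transferSub`  : the connected package for it (explicit form of
                               `ConnPackage.of_isSubquotPow`);
* `StrictPackage I D act W`  : `ConnPackage` + `sq : ∀ σ ∈ D, ∀ u, act σ (act σ u) - u ∈ W`;
* `StrictPackage.of_isSubquotPow` : the strict package passes to equivariant subquotients of finite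
                               powers;
* `StrictPackage.of_subgroup_of_kill` : **the cut**: on an `act`-stable subgroup `Y ≤ M` on which an
  additive operator `t` (commuting with `act`) is invertible, `t ∘ (σ² - 1) M ⊆ W` gives the strict
  package for `Y ∩ W`.

Mathlib only (+ `IsSubquotPow`, `ConnPackage`).
-/
import Mathlib
import Fermat.Agent.GS.Alg.Transfer

set_option autoImplicit false

namespace Fermat.Agent.GB.New.StrictPkg

open Fermat.Agent.GH.S32 Fermat.Agent.GS.Alg.Transfer

variable {G : Type*} {M M' : Type*} [AddCommGroup M] [AddCommGroup M']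

/-! ### the subgroup of increments -/

/-- the subgroup generated by the increments `act σ u - u`, `σ ∈ I`. -/
def incrSub (I : Set G) (act : G → M → M) : AddSubgroup M :=
  AddSubgroup.closure {x | ∃ σ ∈ I, ∃ u : M, x = act σ u - u}

theorem incr_mem_incrSub {I : Set G} {act : G → M → M} {σ : G} (hσ : σ ∈ I) (u : M) :
    act σ u - u ∈ incrSub I act :=
  AddSubgroup.subset_closure ⟨σ, hσ, u, rfl⟩

/-- **uniqueness**: the subgroup of a connected package is the subgroup of increments. -/
theorem connPackage_eq_incrSub {I D : Set G} {act : G → M → M} {W : AddSubgroup M}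
    (h : ConnPackage I D act W) : W = incrSub I act := by
  apply le_antisymm
  · intro w hw
    refine h.ce (incrSub I act) ?_ w hw ?_
    · intro σ hσ u hu
      have : act σ u = u + (act σ u - u) := by abel
      rw [this]
      exact (incrSub I act).add_mem hu (incr_mem_incrSub hσ u)
    · intro σ hσ
      exact incr_mem_incrSub hσ w
  · rw [incrSub, AddSubgroup.closure_le]
    rintro _ ⟨σ, hσ, u, rfl⟩
    exact h.incr σ hσ u

/-- an additive map intertwining two actions maps increments to increments. -/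
theorem map_mem_incrSub {I : Set G} {act : G → M → M} {act' : G → M' → M'} (t : M →+ M')
    (ht : ∀ σ ∈ I, ∀ u, t (act σ u) = act' σ (t u)) {x : M} (hx : x ∈ incrSub I act) :
    t x ∈ incrSub I act' := by
  unfold incrSub at hx
  induction hx using AddSubgroup.closure_induction with
  | mem y hy =>
    obtain ⟨σ, hσ, u, rfl⟩ := hy
    rw [map_sub, ht σ hσ]
    exact incr_mem_incrSub hσ (t u)
  | zero => rw [map_zero]; exact (incrSub I act').zero_mem
  | add y z _ _ hy hz => rw [map_add]; exact (incrSub I act').add_mem hy hz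
  | neg y _ hy => rw [map_neg]; exact (incrSub I act').neg_mem hy

/-- the subgroup of a connected package is stable under every additive operator commuting with
the action of the inertia set. -/
theorem connPackage_map_mem {I D : Set G} {act : G → M → M} {W : AddSubgroup M}
    (h : ConnPackage I D act W) (t : M →+ M) (ht : ∀ σ ∈ I, ∀ u, t (act σ u) = act σ (t u))
    {x : M} (hx : x ∈ W) : t x ∈ W := by
  rw [connPackage_eq_incrSub h] at hx ⊢
  exact map_mem_incrSub t ht hx

/-! ### the explicit transfer -/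

/-- `W ^ r ≤ M ^ r`. -/
def powSub (r : ℕ) (W : AddSubgroup M) : AddSubgroup (Fin r → M) :=
  AddSubgroup.pi Set.univ fun _ => W

theorem mem_powSub {r : ℕ} {W : AddSubgroup M} {x : Fin r → M} :
    x ∈ powSub r W ↔ ∀ i, x i ∈ W := by
  show x ∈ AddSubgroup.pi Set.univ (fun _ => W) ↔ _
  rw [AddSubgroup.mem_pi]
  exact ⟨fun h i => h i (Set.mem_univ i), fun h i _ => h i⟩

/-- `f (X₁ ∩ W ^ r)`: the subgroup of helper79's transfer. -/
def transferSub {r : ℕ} (X₁ : AddSubgroup (Fin r → M)) (f : X₁ →+ M') (W : AddSubgroup M) :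
    AddSubgroup M' :=
  ((powSub r W).comap X₁.subtype).map f

theorem mem_transferSub {r : ℕ} {X₁ : AddSubgroup (Fin r → M)} {f : X₁ →+ M'}
    {W : AddSubgroup M} {y : M'} :
    y ∈ transferSub X₁ f W ↔ ∃ x : X₁, (∀ i, x.1 i ∈ W) ∧ f x = y := by
  constructor
  · rintro ⟨x, hx, rfl⟩
    exact ⟨x, mem_powSub.1 hx, rfl⟩
  · rintro ⟨x, hx, rfl⟩
    exact ⟨x, mem_powSub.2 hx, rfl⟩

/-- **TRANSFER, explicit form** (helper79's `ConnPackage.of_isSubquotPow` with its subgroup
exposed). -/
theorem connPackage_transferSub {I D : Set G} {act : G → M → M} {act' : G → M' → M'}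
    (hadd : ∀ σ x y, act σ (x + y) = act σ x + act σ y) (hID : I ⊆ D)
    (hinv : ∀ σ ∈ D, ∃ τ ∈ D, ∀ w, act' τ (act' σ w) = w)
    {W : AddSubgroup M} (h : ConnPackage I D act W)
    {r : ℕ} (X₁ : AddSubgroup (Fin r → M)) (f : X₁ →+ M') (hf : Function.Surjective f)
    (hst : ∀ g, ∀ x ∈ X₁, (fun i => act g (x i)) ∈ X₁)
    (heq : ∀ g (x : X₁), f ⟨fun i => act g (x.1 i), hst g x.1 x.2⟩ = act' g (f x)) :
    ConnPackage I D act' (transferSub X₁ f W) := by
  have hWI : ∀ σ ∈ I, ∀ w ∈ W, act σ w ∈ W := fun σ hσ w hw => (h.stab σ (hID hσ) w).2 hw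
  -- half of `stab`
  have hfwd : ∀ σ ∈ D, ∀ w ∈ transferSub X₁ f W, act' σ w ∈ transferSub X₁ f W := by
    intro σ hσ w hw
    obtain ⟨z, hz, rfl⟩ := mem_transferSub.1 hw
    refine mem_transferSub.2 ⟨⟨fun i => act σ (z.1 i), hst σ z.1 z.2⟩, ?_, heq σ z⟩
    exact fun i => (h.stab σ hσ _).2 (hz i)
  refine ⟨fun σ hσ w => ⟨fun hw => ?_, hfwd σ hσ w⟩, ?_, ?_⟩
  · obtain ⟨τ, hτ, hτσ⟩ := hinv σ hσ
    have := hfwd τ hτ _ hw
    rwa [hτσ] at this
  · intro σ hσ u
    obtain ⟨x, rfl⟩ := hf u
    refine mem_transferSub.2 ⟨⟨fun i => act σ (x.1 i), hst σ x.1 x.2⟩ - x, ?_, ?_⟩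
    · exact fun i => h.incr σ hσ (x.1 i)
    · rw [map_sub, heq]
  · intro N' hN' w hw hwN'
    obtain ⟨z, hz, rfl⟩ := mem_transferSub.1 hw
    let N : AddSubgroup (Fin r → M) := (N'.comap f).map X₁.subtype
    have hNmem : ∀ x : X₁, x.1 ∈ N ↔ f x ∈ N' := by
      intro x
      constructor
      · rintro ⟨x', hx', hxx'⟩
        have : x' = x := Subtype.ext hxx'
        rw [← this]
        exact hx'
      · intro hx
        exact ⟨x, hx, rfl⟩
    have hN : ∀ σ ∈ I, ∀ u ∈ N, (fun i => act σ (u i)) ∈ N := by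
      rintro σ hσ u ⟨x, hx, rfl⟩
      have h1 : f ⟨fun i => act σ (x.1 i), hst σ x.1 x.2⟩ ∈ N' := by
        rw [heq]
        exact hN' σ hσ _ hx
      exact (hNmem ⟨fun i => act σ (x.1 i), hst σ x.1 x.2⟩).2 h1
    have hzN : ∀ σ ∈ I, (fun i => act σ (z.1 i)) - z.1 ∈ N := by
      intro σ hσ
      have h1 : f (⟨fun i => act σ (z.1 i), hst σ z.1 z.2⟩ - z) ∈ N' := by
        rw [map_sub, heq]
        exact hwN' σ hσ
      exact (hNmem (⟨fun i => act σ (z.1 i), hst σ z.1 z.2⟩ - z)).2 h1
    have := ce_pow hadd hWI h.ce r N hN z.1 hz hzN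
    exact (hNmem z).1 this

/-! ### the strict package -/

/-- The **strict package**: the connected package of `W ≤ M` together with
"`σ ∘ σ - 1` maps `M` into `W` for every `σ` of the decomposition set". -/
structure StrictPackage (I D : Set G) (act : G → M → M) (W : AddSubgroup M) : Prop where
  conn : ConnPackage I D act W
  sq : ∀ σ ∈ D, ∀ u, act σ (act σ u) - u ∈ W

/-- **TRANSFER of the strict package** to equivariant subquotients of finite powers. -/
theorem StrictPackage.of_isSubquotPow {I D : Set G} {act : G → M → M} {act' : G → M' → M'}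
    (hadd : ∀ σ x y, act σ (x + y) = act σ x + act σ y) (hID : I ⊆ D)
    (hinv : ∀ σ ∈ D, ∃ τ ∈ D, ∀ w, act' τ (act' σ w) = w)
    {W : AddSubgroup M} (h : StrictPackage I D act W) (hsub : IsSubquotPow act act') :
    ∃ W' : AddSubgroup M', StrictPackage I D act' W' := by
  obtain ⟨r, X₁, f, hf, hst, heq⟩ := hsub
  refine ⟨transferSub X₁ f W, connPackage_transferSub hadd hID hinv h.conn X₁ f hf hst heq, ?_⟩
  intro σ hσ u
  obtain ⟨x, rfl⟩ := hf u
  let x1 : X₁ := ⟨fun i => act σ (x.1 i), hst σ x.1 x.2⟩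
  let x2 : X₁ := ⟨fun i => act σ (x1.1 i), hst σ x1.1 x1.2⟩
  refine mem_transferSub.2 ⟨x2 - x, fun i => h.sq σ hσ (x.1 i), ?_⟩
  rw [map_sub]
  have h1 : f x1 = act' σ (f x) := heq σ x
  have h2 : f x2 = act' σ (f x1) := heq σ x1
  rw [h2, h1]

/-! ### the cut -/

/-- **THE CUT.**  `Y ≤ M` an `act`-stable subgroup (`D`-part), `t` an additive operator commuting
with `act` which is invertible on `Y` (`t' ∘ t = id` on `Y`, `t'` commuting with `act` on `I`),
`W` with the connected package, and `t ∘ (σ ∘ σ - 1)` maps `M` into `W` for `σ ∈ D`.  Then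
`Y ∩ W ≤ Y` has the strict package for the restricted action. -/
theorem StrictPackage.of_subgroup_of_kill {I D : Set G} {act : G → M → M} (hID : I ⊆ D)
    {W : AddSubgroup M} (h : ConnPackage I D act W)
    (Y : AddSubgroup M) (hY : ∀ σ ∈ D, ∀ y ∈ Y, act σ y ∈ Y)
    (t t' : M →+ M) (ht' : ∀ σ ∈ I, ∀ u, t' (act σ u) = act σ (t' u))
    (hinvY : ∀ y ∈ Y, t' (t y) = y)
    (hkill : ∀ σ ∈ D, ∀ u, t (act σ (act σ u) - u) ∈ W)
    (actY : G → Y → Y) (hactY : ∀ σ ∈ D, ∀ y : Y, (actY σ y : M) = act σ (y : M)) :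
    StrictPackage I D actY (W.comap Y.subtype) := by
  have hmem : ∀ y : Y, y ∈ W.comap Y.subtype ↔ (y : M) ∈ W := fun y => Iff.rfl
  refine ⟨⟨?_, ?_, ?_⟩, ?_⟩
  · intro σ hσ w
    rw [hmem, hmem, hactY σ hσ]
    exact h.stab σ hσ _
  · intro σ hσ u
    rw [hmem, AddSubgroup.coe_sub, hactY σ (hID hσ)]
    exact h.incr σ hσ _
  · intro N' hN' w hw hwN'
    let N'' : AddSubgroup M := N'.map Y.subtype
    have hm : (w : M) ∈ N'' := by
      refine h.ce N'' ?_ (w : M) hw ?_
      · rintro σ hσ _ ⟨u, hu, rfl⟩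
        refine ⟨actY σ u, hN' σ hσ u hu, ?_⟩
        exact hactY σ (hID hσ) u
      · intro σ hσ
        refine ⟨actY σ w - w, hwN' σ hσ, ?_⟩
        show ((actY σ w - w : Y) : M) = _
        rw [AddSubgroup.coe_sub, hactY σ (hID hσ)]
    obtain ⟨w', hw', hww'⟩ := hm
    have : w' = w := Subtype.ext hww'
    rw [← this]
    exact hw'
  · intro σ hσ u
    rw [hmem, AddSubgroup.coe_sub, hactY σ hσ, hactY σ hσ]
    have hy : act σ (act σ (u : M)) - (u : M) ∈ Y :=
      Y.sub_mem (hY σ hσ _ (hY σ hσ _ u.2)) u.2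
    rw [← hinvY _ hy]
    exact connPackage_map_mem h t' ht' (hkill σ hσ _)

end Fermat.Agent.GB.New.StrictPkg
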