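/-
GATE-B (S38/S43) / CASE B, `p ∣ level` branch / node B10′ = (M1) "p-new ⟹ strict", ALGEBRA END,
file 2 (helper78): **the frozen `IsStrictOrdinaryAt` from `IsOrdinaryAt`, `DetIsCyclotomic` and
per-level strict packages.**

`A` a Noetherian local ring, `ρ : GaloisRepAdic A`, `p ∈ 𝔪_A`.

* `isStrictOrdinaryAt_of_sq` : if `ρ` is ordinary at `p` with cyclotomic determinant and, for every
  place `P ∣ p`, every ordinary line `L` at `P` and every `σ ∈ D_P`,
  `ρ(σ)² v - v ∈ L` for all `v` ("the unramified quotient character `z` has `z² = 1`"), then `ρ` is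
  STRICTLY ordinary at `p`: `x z ≡ a` and `z² = 1` give `x - a z = z (x z - a) ∈ (pⁿ)`.
* `sq_mem_of_levels` : the hypothesis from per-level data: if at every level `𝔪ⁿ` there is
  `W_n ≤ V/𝔪ⁿV` with the strict package of `GB/New/StrictPkg` for `(I_P, D_P, ρ.levelAction 𝔪ⁿ)`,
  then for EVERY submodule `L` containing the inertia increments `(τ - 1) V`, `τ ∈ I_P`, with
  `V ⧸ L` finitely generated... (here: `L` an ordinary line): `ρ(σ)² v - v ∈ L`
  (`W_n` is generated by the increments, so `W_n ⊆ L + 𝔪ⁿV`; Krull).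
* `isStrictOrdinaryAt_of_levels` : the two together.
-/
import Mathlib
import Fermat.Prelude.Def_GaloisRep_StrictOrdinary
import Fermat.Prelude.Def_GaloisRep_Flat
import Fermat.Agent.GB.New.StrictPkg

set_option autoImplicit false

open IsLocalRing

namespace Fermat.Agent.GB.New.StrictOfLevels

open Fermat.Agent.GB.New.StrictPkg Fermat.Agent.GS.Alg.Transfer

local notation "Qb" => AlgebraicClosure ℚ
local notation "GQ" => (AlgebraicClosure ℚ ≃ₐ[ℚ] AlgebraicClosure ℚ)

variable {A : Type} [CommRing A] [IsLocalRing A]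

/-! ### `z² = 1` ⟹ strict -/

/-- **`z² = 1` ⟹ strict.**  An ordinary representation with cyclotomic determinant such that
`ρ(σ)² - 1` maps `V` into every ordinary line, for every `σ` of the decomposition group, is
strictly ordinary. -/
theorem isStrictOrdinaryAt_of_sq (ρ : GaloisRepAdic A) {p : ℕ}
    (hdet : ρ.DetIsCyclotomic p)
    (hord : ρ.IsOrdinaryAt p)
    (hsq : ∀ P : ValuationSubring Qb, P.LiesOverPrime p → ∀ L : Submodule A ρ.V,
      (∃ b : Module.Basis (Fin 2) A ρ.V, L = A ∙ b 0) →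
      (∀ σ ∈ P.decompositionSubgroup ℚ, ∀ v ∈ L, ρ.ρ σ v ∈ L) →
      (∀ σ ∈ P.inertiaSubgroupIn ℚ, ∀ v : ρ.V, ρ.ρ σ v - v ∈ L) →
      ∀ σ ∈ P.decompositionSubgroup ℚ, ∀ v : ρ.V, ρ.ρ σ (ρ.ρ σ v) - v ∈ L) :
    ρ.IsStrictOrdinaryAt p := by
  refine ⟨hdet.1, fun P hP => ?_⟩
  obtain ⟨L, ⟨b, hb⟩, hD, hI⟩ := hord P hP
  refine ⟨L, ⟨b, hb⟩, hD, hI, fun σ hσ => ?_⟩
  have hsqL := hsq P hP L ⟨b, hb⟩ hD hI σ hσ
  -- coordinates
  have hb0L : b 0 ∈ L := by rw [hb]; exact Submodule.mem_span_singleton_self _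
  have hmemL : ∀ v : ρ.V, v ∈ L ↔ b.repr v 1 = 0 := by
    intro v
    rw [hb, Submodule.mem_span_singleton]
    constructor
    · rintro ⟨a, rfl⟩
      rw [map_smul, Finsupp.smul_apply, b.repr_self, Finsupp.single_apply]
      simp
    · intro h1
      refine ⟨b.repr v 0, ?_⟩
      have := b.sum_repr v
      rw [Fin.sum_univ_two, h1, zero_smul, add_zero] at this
      exact this
  -- the scalar on the line
  obtain ⟨x, hx⟩ : ∃ x : A, ρ.ρ σ (b 0) = x • b 0 := by
    have h1 := hD σ hσ (b 0) hb0L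
    rw [hb, Submodule.mem_span_singleton] at h1
    obtain ⟨x, hx⟩ := h1
    exact ⟨x, hx.symm⟩
  -- the scalar on the quotient
  set z : A := b.repr (ρ.ρ σ (b 1)) 1 with hz
  set c : A := b.repr (ρ.ρ σ (b 1)) 0 with hc
  have hb1 : ρ.ρ σ (b 1) = c • b 0 + z • b 1 := by
    have := b.sum_repr (ρ.ρ σ (b 1))
    rw [Fin.sum_univ_two] at this
    exact this.symm
  have hxL : ∀ w ∈ L, ρ.ρ σ w = x • w := by
    intro w hw
    rw [hb, Submodule.mem_span_singleton] at hw
    obtain ⟨a, rfl⟩ := hw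
    rw [map_smul, hx, smul_comm]
  have hzL : ∀ v : ρ.V, ρ.ρ σ v - z • v ∈ L := by
    intro v
    have hv := b.sum_repr v
    rw [Fin.sum_univ_two] at hv
    have e : ρ.ρ σ v - z • v =
        (b.repr v 0 * (x - z) + b.repr v 1 * c) • b 0 := by
      conv_lhs => rw [← hv]
      rw [map_add, map_smul, map_smul, hx, hb1]
      simp only [smul_add, smul_smul, add_smul, sub_smul, mul_sub]
      rw [mul_comm z (b.repr v 0), mul_comm z (b.repr v 1)]
      abel
    rw [e]
    exact L.smul_mem _ hb0L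
  -- `z² = 1`
  have hz2 : z * z = 1 := by
    have h1 := hsqL (b 1)
    rw [hmemL] at h1
    have e : ρ.ρ σ (ρ.ρ σ (b 1)) - b 1 = (c * x + z * c) • b 0 + (z * z - 1) • b 1 := by
      rw [hb1, map_add, map_smul, map_smul, hx, hb1]
      simp only [smul_add, smul_smul, add_smul, sub_smul, one_smul]
      abel
    rw [e, map_add, map_smul, map_smul, b.repr_self, b.repr_self, Finsupp.add_apply,
      Finsupp.smul_apply, Finsupp.smul_apply, Finsupp.single_apply, Finsupp.single_apply] at h1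
    simp only [Fin.isValue, zero_ne_one, ↓reduceIte, smul_eq_mul, mul_zero, zero_add,
      mul_one] at h1
    exact sub_eq_zero.1 h1
  -- the determinant
  have hdetσ : LinearMap.det (ρ.ρ σ) = x * z := by
    rw [← LinearMap.det_toMatrix b, Matrix.det_fin_two]
    have e00 : LinearMap.toMatrix b b (ρ.ρ σ) 0 0 = x := by
      rw [LinearMap.toMatrix_apply, hx, map_smul, Finsupp.smul_apply, b.repr_self,
        Finsupp.single_apply]
      simp
    have e10 : LinearMap.toMatrix b b (ρ.ρ σ) 1 0 = 0 := by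
      rw [LinearMap.toMatrix_apply, hx, map_smul, Finsupp.smul_apply, b.repr_self,
        Finsupp.single_apply]
      simp
    have e11 : LinearMap.toMatrix b b (ρ.ρ σ) 1 1 = z := by
      rw [LinearMap.toMatrix_apply]
    rw [e00, e10, e11, mul_zero, sub_zero]
  refine ⟨x, z, hxL, hzL, fun n a ha => ?_⟩
  have h1 := hdet.2 n σ a ha
  rw [hdetσ] at h1
  have e : x - (a : A) * z = z * (x * z - (a : A)) := by
    have : x = x * (z * z) := by rw [hz2, mul_one]
    conv_lhs => rw [this]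
    ring
  rw [e]
  exact Ideal.mul_mem_left _ _ h1

/-! ### the square hypothesis from per-level strict packages -/

section Levels

variable [IsNoetherianRing A]

/-- Krull: a vector lying in `L + 𝔪ⁿ V` for every `n` lies in `L` (`V` finite). -/
theorem mem_of_forall_mem_sup_pow {V : Type*} [AddCommGroup V] [Module A V] [Module.Finite A V]
    (L : Submodule A V) (y : V)
    (h : ∀ n : ℕ, y ∈ L ⊔ (maximalIdeal A ^ n) • (⊤ : Submodule A V)) : y ∈ L := by
  set q : V →ₗ[A] V ⧸ L := L.mkQ with hq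
  have hmem : q y ∈ (⨅ n : ℕ, (maximalIdeal A ^ n) • (⊤ : Submodule A (V ⧸ L))) := by
    rw [Submodule.mem_iInf]
    intro n
    obtain ⟨l, hl, w, hw, rfl⟩ := Submodule.mem_sup.1 (h n)
    have hql : q l = 0 := by
      rw [hq, Submodule.mkQ_apply, Submodule.Quotient.mk_eq_zero]
      exact hl
    rw [map_add, hql, zero_add]
    refine Submodule.smul_induction_on
      (p := fun z => q z ∈ (maximalIdeal A ^ n) • (⊤ : Submodule A (V ⧸ L))) hw
      (fun a ha z _ => ?_) (fun z z' hz hz' => ?_)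
    · show q (a • z) ∈ _
      rw [map_smul]
      exact Submodule.smul_mem_smul ha Submodule.mem_top
    · show q (z + z') ∈ _
      rw [map_add]
      exact Submodule.add_mem _ hz hz'
  rw [Ideal.iInf_pow_smul_eq_bot_of_isLocalRing (maximalIdeal A)
    (IsLocalRing.maximalIdeal.isMaximal A).ne_top, Submodule.mem_bot, hq, Submodule.mkQ_apply,
    Submodule.Quotient.mk_eq_zero] at hmem
  exact hmem

/-- **The square hypothesis from the levels.**  If at every level `𝔪ⁿ` some `W_n ≤ V/𝔪ⁿV` has the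
strict package for `(I_P, D_P, ρ.levelAction 𝔪ⁿ)`, then `ρ(σ)² v - v ∈ L` for every `σ ∈ D_P` and
every submodule `L` containing the inertia increments. -/
theorem sq_mem_of_levels (ρ : GaloisRepAdic A) (P : ValuationSubring Qb)
    (hlev : ∀ n : ℕ, ∃ W : AddSubgroup (ρ.V ⧸ ((maximalIdeal A ^ n) • (⊤ : Submodule A ρ.V))),
      StrictPackage (↑(P.inertiaSubgroupIn ℚ) : Set GQ) (↑(P.decompositionSubgroup ℚ) : Set GQ)
        (fun (σ : GQ) (w : ρ.V ⧸ ((maximalIdeal A ^ n) • (⊤ : Submodule A ρ.V))) =>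
          ρ.levelAction (maximalIdeal A ^ n) σ w) W)
    (L : Submodule A ρ.V)
    (hI : ∀ σ ∈ P.inertiaSubgroupIn ℚ, ∀ v : ρ.V, ρ.ρ σ v - v ∈ L)
    {σ : GQ} (hσ : σ ∈ P.decompositionSubgroup ℚ) (v : ρ.V) :
    ρ.ρ σ (ρ.ρ σ v) - v ∈ L := by
  refine mem_of_forall_mem_sup_pow L _ fun n => ?_
  obtain ⟨W, hW⟩ := hlev n
  have hπact : ∀ (τ : GQ) (u : ρ.V),
      ρ.levelAction (maximalIdeal A ^ n) τ
        (((maximalIdeal A ^ n) • (⊤ : Submodule A ρ.V)).mkQ u) =
      ((maximalIdeal A ^ n) • (⊤ : Submodule A ρ.V)).mkQ (ρ.ρ τ u) :=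
    fun τ u => rfl
  -- `W ≤ π L`
  have hWL : W ≤ (L.map ((maximalIdeal A ^ n) • (⊤ : Submodule A ρ.V)).mkQ).toAddSubgroup := by
    rw [connPackage_eq_incrSub hW.conn, incrSub, AddSubgroup.closure_le]
    rintro _ ⟨τ, hτ, u, rfl⟩
    obtain ⟨u', rfl⟩ := ((maximalIdeal A ^ n) • (⊤ : Submodule A ρ.V)).mkQ_surjective u
    show ρ.levelAction (maximalIdeal A ^ n) τ
        (((maximalIdeal A ^ n) • (⊤ : Submodule A ρ.V)).mkQ u') -
      ((maximalIdeal A ^ n) • (⊤ : Submodule A ρ.V)).mkQ u' ∈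
        L.map ((maximalIdeal A ^ n) • (⊤ : Submodule A ρ.V)).mkQ
    rw [hπact, ← map_sub]
    exact Submodule.mem_map_of_mem (hI τ hτ u')
  have h1 : ρ.levelAction (maximalIdeal A ^ n) σ (ρ.levelAction (maximalIdeal A ^ n) σ
        (((maximalIdeal A ^ n) • (⊤ : Submodule A ρ.V)).mkQ v)) -
      ((maximalIdeal A ^ n) • (⊤ : Submodule A ρ.V)).mkQ v ∈
        L.map ((maximalIdeal A ^ n) • (⊤ : Submodule A ρ.V)).mkQ :=
    hWL (hW.sq σ hσ _)
  rw [hπact, hπact, ← map_sub] at h1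
  obtain ⟨l, hl, hlv⟩ := h1
  have h2 : ρ.ρ σ (ρ.ρ σ v) - v - l ∈ (maximalIdeal A ^ n) • (⊤ : Submodule A ρ.V) := by
    rw [← Submodule.Quotient.mk_eq_zero, Submodule.Quotient.mk_sub]
    show ((maximalIdeal A ^ n) • (⊤ : Submodule A ρ.V)).mkQ (ρ.ρ σ (ρ.ρ σ v) - v) -
      ((maximalIdeal A ^ n) • (⊤ : Submodule A ρ.V)).mkQ l = 0
    rw [hlv, sub_self]
  have e : ρ.ρ σ (ρ.ρ σ v) - v = l + (ρ.ρ σ (ρ.ρ σ v) - v - l) := by abel
  rw [e]
  exact Submodule.add_mem_sup hl h2

/-- **Frozen `IsStrictOrdinaryAt` from `IsOrdinaryAt`, `DetIsCyclotomic` and per-level strict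
packages at every place above `p`.** -/
theorem isStrictOrdinaryAt_of_levels (ρ : GaloisRepAdic A) {p : ℕ}
    (hdet : ρ.DetIsCyclotomic p) (hord : ρ.IsOrdinaryAt p)
    (hlev : ∀ P : ValuationSubring Qb, P.LiesOverPrime p → ∀ n : ℕ,
      ∃ W : AddSubgroup (ρ.V ⧸ ((maximalIdeal A ^ n) • (⊤ : Submodule A ρ.V))),
        StrictPackage (↑(P.inertiaSubgroupIn ℚ) : Set GQ) (↑(P.decompositionSubgroup ℚ) : Set GQ)
          (fun (σ : GQ) (w : ρ.V ⧸ ((maximalIdeal A ^ n) • (⊤ : Submodule A ρ.V))) =>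
            ρ.levelAction (maximalIdeal A ^ n) σ w) W) :
    ρ.IsStrictOrdinaryAt p :=
  isStrictOrdinaryAt_of_sq ρ hdet hord fun P hP L _ _ hI _ hσ v =>
    sq_mem_of_levels ρ P (hlev P hP) L hI hσ v

end Levels

end Fermat.Agent.GB.New.StrictOfLevels
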